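/-
S44, block X, COVER, node SHEET (architect helper30).  Abstract leaf ZETA.
For every valuation ring `B` of a field containing a primitive `p`-th root of unity `ζ`:
`v(ζ^i - ζ^j)^(p-1) = v(p)` for `i ≢ j mod p`.

Proof: `ζ ∈ B` is a unit (`v(ζ)^p = 1`).  For `k ≢ 0`: `(1 - ζ^k) = (1 - ζ)(1 + ζ + … + ζ^(k-1))`, so
`v(1 - ζ^k) ≤ v(1 - ζ)`; as `ζ = (ζ^k)^k'` (`k k' ≡ 1`), also `v(1 - ζ) ≤ v(1 - ζ^k)`.
`∏_{k=1}^{p-1} (1 - ζ^k) = p` (Mathlib: `IsPrimitiveRoot.prod_one_sub_pow_eq_order` or evaluate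
`Polynomial.cyclotomic p` at one).
-/
import Mathlib

set_option autoImplicit false

namespace Fermat.Agent.S44.X.Cover.Sheet

private theorem val_zeta_sub_geom {F : Type*} [Field F] {Γ : Type*}
    [LinearOrderedCommGroupWithZero Γ] (v : Valuation F Γ) {x : F} (hx : v x ≤ 1) (k : ℕ) :
    v (1 - x ^ k) ≤ v (1 - x) := by
  rw [← geom_sum_mul_neg, map_mul]
  have : v (∑ i ∈ Finset.range k, x ^ i) ≤ 1 := by
    apply Valuation.map_sum_le
    intro i _
    rw [map_pow]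
    exact pow_le_one₀ zero_le hx
  exact mul_le_of_le_one_left' this

private theorem val_zeta_sub_val_one {F : Type*} [Field F] {Γ : Type*}
    [LinearOrderedCommGroupWithZero Γ] (v : Valuation F Γ) {p : ℕ} (hp : p.Prime) {ζ : F}
    (hζ : IsPrimitiveRoot ζ p) : v ζ = 1 := by
  have h : v ζ ^ p = 1 := by rw [← map_pow, hζ.pow_eq_one, map_one]
  exact (pow_eq_one_iff.1 h).resolve_right hp.ne_zero

private theorem val_zeta_sub_pow {F : Type*} [Field F] {Γ : Type*}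
    [LinearOrderedCommGroupWithZero Γ] (v : Valuation F Γ) {p : ℕ} (hp : p.Prime) {ζ : F}
    (hζ : IsPrimitiveRoot ζ p) (k : ℕ) (hk : ¬ p ∣ k) : v (1 - ζ ^ k) = v (1 - ζ) := by
  have hζ1 : v ζ = 1 := val_zeta_sub_val_one v hp hζ
  apply le_antisymm (val_zeta_sub_geom v hζ1.le k)
  have hcop : Nat.Coprime k p := ((Nat.Prime.coprime_iff_not_dvd hp).2 hk).symm
  obtain ⟨k', _, hk'⟩ := Nat.exists_mul_mod_eq_one_of_coprime hcop hp.one_lt
  have h1 : (ζ ^ k) ^ k' = ζ := by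
    rw [← pow_mul, ← Nat.mod_add_div (k * k') p, hk', pow_add, pow_mul, hζ.pow_eq_one, one_pow,
      mul_one, pow_one]
  have h2 : v (ζ ^ k) ≤ 1 := by rw [map_pow, hζ1, one_pow]
  calc v (1 - ζ) = v (1 - (ζ ^ k) ^ k') := by rw [h1]
    _ ≤ _ := val_zeta_sub_geom v h2 k'

private theorem val_zeta_sub_base {F : Type*} [Field F] {Γ : Type*}
    [LinearOrderedCommGroupWithZero Γ] (v : Valuation F Γ) {p : ℕ} (hp : p.Prime) {ζ : F}
    (hζ : IsPrimitiveRoot ζ p) : v (1 - ζ) ^ (p - 1) = v (p : F) := by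
  obtain ⟨n, rfl⟩ : ∃ n, p = n + 1 := ⟨p - 1, (Nat.sub_add_cancel hp.one_le).symm⟩
  have h1 := hζ.prod_one_sub_pow_eq_order
  have h2 : ((n + 1 : ℕ) : F) = ∏ k ∈ Finset.range n, (1 - ζ ^ (k + 1)) := by
    rw [h1]
    push_cast
    ring
  rw [h2, map_prod, Nat.add_sub_cancel]
  have h3 : ∀ k ∈ Finset.range n, v (1 - ζ ^ (k + 1)) = v (1 - ζ) := by
    intro k hk
    rw [Finset.mem_range] at hk
    exact val_zeta_sub_pow v hp hζ (k + 1)
      (Nat.not_dvd_of_pos_of_lt (Nat.succ_pos k) (by omega))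
  rw [Finset.prod_congr rfl h3, Finset.prod_const, Finset.card_range]

private theorem val_zeta_sub_le {F : Type*} [Field F] {Γ : Type*}
    [LinearOrderedCommGroupWithZero Γ] (v : Valuation F Γ) {p : ℕ} (hp : p.Prime) {ζ : F}
    (hζ : IsPrimitiveRoot ζ p) {i j : ℕ} (hji : j ≤ i) (hij : ¬ i ≡ j [MOD p]) :
    v (ζ ^ i - ζ ^ j) ^ (p - 1) = v (p : F) := by
  have hd : ¬ p ∣ i - j := fun h => hij ((Nat.modEq_iff_dvd' hji).mpr h).symm
  have e : ζ ^ i - ζ ^ j = -(ζ ^ j * (1 - ζ ^ (i - j))) := by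
    rw [mul_sub, mul_one, ← pow_add, Nat.add_sub_cancel' hji]
    ring
  rw [e, Valuation.map_neg, map_mul, map_pow, val_zeta_sub_val_one v hp hζ, one_pow, one_mul,
    val_zeta_sub_pow v hp hζ _ hd, val_zeta_sub_base v hp hζ]

theorem val_zeta_sub {F : Type*} [Field F] (B : ValuationSubring F) {p : ℕ} (hp : p.Prime)
    {ζ : F} (hζ : IsPrimitiveRoot ζ p) {i j : ℕ} (hij : ¬ i ≡ j [MOD p]) :
    B.valuation (ζ ^ i - ζ ^ j) ^ (p - 1) = B.valuation (p : F) := by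
  rcases le_total j i with h | h
  · exact val_zeta_sub_le B.valuation hp hζ h hij
  · rw [Valuation.map_sub_swap]
    exact val_zeta_sub_le B.valuation hp hζ h (fun h' => hij h'.symm)

end Fermat.Agent.S44.X.Cover.Sheet
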