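/-
S44, block X, COVER, node SHEET (architect helper30).  Abstract leaf ROOT (deep root lemma).
`x ^ p ≡ 1 mod p ^ (n+1)` implies `x ≡ ζ ^ i mod p ^ n` for some `i`.

Proof: `∏_{i<p} (x - ζ^i) = x^p - 1` (`IsPrimitiveRoot.pow_sub_one_eq_prod` / `X_pow_sub_one_eq_prod`,
`Polynomial.nthRoots`, or `IsPrimitiveRoot.pow_sub_pow_eq_prod_sub_zeta_runity_mul`).  Let `i₀`
minimise `v(x - ζ^i)` over `i < p` (`Finset.exists_min_image`).  For `i ≠ i₀`:
`v(ζ^i₀ - ζ^i) ≤ max (v(x - ζ^i₀)) (v(x - ζ^i)) = v(x - ζ^i)`.  With `λ := v(ζ^i₀ - ζ^i)`,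
`λ^(p-1) = v(p)` (`val_zeta_sub`): raise to the power `p - 1`:
`v(x - ζ^i₀)^(p-1) * v(p)^(p-1) ≤ (∏ v(x - ζ^i))^(p-1) ≤ v(p)^((n+1)(p-1))`, hence
`v(x - ζ^i₀) ≤ v(p)^n` (`pow_le_pow_left` contrapositive in a linearly ordered group with zero;
`v(p) ≠ 0` because `(p : F) ≠ 0`: `hζ.neZero'`/`IsPrimitiveRoot.neZero'`).
-/
import Fermat.Agent.S44.X.Cover.Sheet.Zeta

set_option autoImplicit false

namespace Fermat.Agent.S44.X.Cover.Sheet

theorem deep_root {F : Type*} [Field F] (B : ValuationSubring F) {p : ℕ} (hp : p.Prime)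
    {ζ : F} (hζ : IsPrimitiveRoot ζ p) (n : ℕ) (x : F)
    (hx : (x ^ p - 1) / (p : F) ^ (n + 1) ∈ B) :
    ∃ i < p, (x - ζ ^ i) / (p : F) ^ n ∈ B := by
  classical
  have : NeZero p := ⟨hp.ne_zero⟩
  have hp0 : (p : F) ≠ 0 := (hζ.neZero').out
  set v := B.valuation with hv
  have hvp : v (p : F) ≠ 0 := (Valuation.ne_zero_iff _).2 hp0
  have hp1 : p - 1 ≠ 0 := by have := hp.two_le; omega
  set S := Polynomial.nthRootsFinset p (1 : F) with hS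
  have hprod : x ^ p - 1 = ∏ η ∈ S, (x - η) := by
    have h := congrArg (Polynomial.eval x) (Polynomial.X_pow_sub_one_eq_prod hp.pos hζ)
    simpa [Polynomial.eval_prod] using h
  have hSne : S.Nonempty := ⟨1, by rw [hS, Polynomial.mem_nthRootsFinset hp.pos]; exact one_pow p⟩
  obtain ⟨η₀, hη₀, hmin⟩ := Finset.exists_min_image S (fun η => v (x - η)) hSne
  have hη₀' : η₀ ^ p = 1 := (Polynomial.mem_nthRootsFinset hp.pos _).1 hη₀
  obtain ⟨i₀, hi₀, rfl⟩ := hζ.eq_pow_of_pow_eq_one hη₀'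
  refine ⟨i₀, hi₀, ?_⟩
  -- the other factors
  have hother : ∀ η ∈ S.erase (ζ ^ i₀), v (p : F) ≤ v (x - η) ^ (p - 1) := by
    intro η hη
    obtain ⟨hne, hηS⟩ := Finset.mem_erase.1 hη
    obtain ⟨i, -, rfl⟩ := hζ.eq_pow_of_pow_eq_one ((Polynomial.mem_nthRootsFinset hp.pos _).1 hηS)
    have hij : ¬ i₀ ≡ i [MOD p] := by
      intro h
      apply hne
      rw [pow_eq_pow_mod i hζ.pow_eq_one, pow_eq_pow_mod i₀ hζ.pow_eq_one]
      exact congrArg (fun k => ζ ^ k) h.symm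
    rw [← val_zeta_sub B hp hζ hij]
    refine pow_le_pow_left₀ zero_le ?_ _
    have h1 : ζ ^ i₀ - ζ ^ i = (x - ζ ^ i) - (x - ζ ^ i₀) := by ring
    rw [h1]
    exact (Valuation.map_sub _ _ _).trans (max_le le_rfl (hmin _ hηS))
  have hcard : (S.erase (ζ ^ i₀)).card = p - 1 := by
    rw [Finset.card_erase_of_mem hη₀, hS, hζ.card_nthRootsFinset]
  have h1 : v (p : F) ^ (p - 1) ≤ (∏ η ∈ S.erase (ζ ^ i₀), v (x - η)) ^ (p - 1) := by
    rw [← Finset.prod_pow]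
    calc v (p : F) ^ (p - 1) = ∏ _η ∈ S.erase (ζ ^ i₀), v (p : F) := by
          rw [Finset.prod_const, hcard]
      _ ≤ _ := Finset.prod_le_prod' hother
  have h2 : v (p : F) ≤ ∏ η ∈ S.erase (ζ ^ i₀), v (x - η) :=
    (pow_le_pow_iff_left₀ zero_le zero_le hp1).1 h1
  have h3 : v (x ^ p - 1) ≤ v (p : F) ^ (n + 1) := by
    have h := (B.valuation_le_one_iff _).2 hx
    rw [map_div₀, map_pow] at h
    exact (div_le_one₀ (zero_lt_iff.2 (pow_ne_zero _ hvp))).1 h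
  rw [hprod, map_prod, ← Finset.mul_prod_erase S _ hη₀] at h3
  have h4 : v (x - ζ ^ i₀) * v (p : F) ≤ v (p : F) ^ n * v (p : F) :=
    (mul_le_mul' le_rfl h2).trans (h3.trans (pow_succ _ _).le)
  have h5 : v (x - ζ ^ i₀) ≤ v (p : F) ^ n :=
    (mul_le_mul_iff_left₀ (zero_lt_iff.2 hvp)).1 h4
  rw [← B.valuation_le_one_iff, map_div₀, map_pow]
  exact (div_le_one₀ (zero_lt_iff.2 (pow_ne_zero _ hvp))).2 h5

end Fermat.Agent.S44.X.Cover.Sheet
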