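/-
S44, block X, COVER, node SHEET (architect helper30).  Abstract leaf ARCH.
If every element of `F₀` is `π`-adically bounded for `B`, so is every element of `F₁ = F₀[w]`,
`w ^ d ∈ F₀`.

Proof: `R := {z | ∃ n, π^n z ∈ B}` is closed under sums (take the max of the exponents, `π ∈ B`) and
products (add the exponents); it contains `F₀` and `w`: if `π^n u ∈ B` then
`(π^n w)^d = π^(n(d-1)) * (π^n u) ∈ B`, so `π^n w ∈ B` (`v(x)^d ≤ 1 → v(x) ≤ 1`,
`pow_le_one_iff`/`ValuationSubring` is integrally closed).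
-/
import Mathlib

set_option autoImplicit false

namespace Fermat.Agent.S44.X.Cover.Sheet

theorem arch_of_repr {F₀ F₁ : Type*} [Field F₀] [Field F₁] [Algebra F₀ F₁]
    (B : ValuationSubring F₁) (π : F₁) (hπ : π ∈ B) (w : F₁) (d : ℕ) (hd : d ≠ 0) (u : F₀)
    (hw : w ^ d = algebraMap F₀ F₁ u)
    (h0 : ∀ f : F₀, ∃ n : ℕ, π ^ n * algebraMap F₀ F₁ f ∈ B)
    (hrepr : ∀ z : F₁, ∃ c : ℕ → F₀, z = ∑ i ∈ Finset.range d, algebraMap F₀ F₁ (c i) * w ^ i)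
    (z : F₁) : ∃ n : ℕ, π ^ n * z ∈ B := by
  have hpow : ∀ n : ℕ, π ^ n ∈ B := fun n => pow_mem hπ n
  have hadd : ∀ a b : F₁, (∃ n : ℕ, π ^ n * a ∈ B) → (∃ n : ℕ, π ^ n * b ∈ B) →
      ∃ n : ℕ, π ^ n * (a + b) ∈ B := by
    rintro a b ⟨n, hn⟩ ⟨m, hm⟩
    refine ⟨n + m, ?_⟩
    have e : π ^ (n + m) * (a + b) = π ^ m * (π ^ n * a) + π ^ n * (π ^ m * b) := by
      rw [pow_add]; ring
    rw [e]
    exact add_mem (mul_mem (hpow m) hn) (mul_mem (hpow n) hm)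
  have hmul : ∀ a b : F₁, (∃ n : ℕ, π ^ n * a ∈ B) → (∃ n : ℕ, π ^ n * b ∈ B) →
      ∃ n : ℕ, π ^ n * (a * b) ∈ B := by
    rintro a b ⟨n, hn⟩ ⟨m, hm⟩
    refine ⟨n + m, ?_⟩
    have e : π ^ (n + m) * (a * b) = (π ^ n * a) * (π ^ m * b) := by
      rw [pow_add]; ring
    rw [e]
    exact mul_mem hn hm
  have hroot : ∀ x : F₁, x ^ d ∈ B → x ∈ B := by
    intro x hx
    rcases B.mem_or_inv_mem x with h | h
    · exact h
    · by_cases hx0 : x = 0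
      · rw [hx0]; exact zero_mem B
      · obtain ⟨e, rfl⟩ : ∃ e, d = e + 1 := ⟨d - 1, by omega⟩
        have e1 : x = x ^ (e + 1) * x⁻¹ ^ e := by
          rw [pow_succ, inv_pow, mul_assoc, mul_comm x, ← mul_assoc,
            mul_inv_cancel₀ (pow_ne_zero e hx0), one_mul]
        rw [e1]
        exact mul_mem hx (pow_mem h e)
  have hwP : ∃ n : ℕ, π ^ n * w ∈ B := by
    obtain ⟨n, hn⟩ := h0 u
    refine ⟨n, hroot _ ?_⟩
    obtain ⟨e, rfl⟩ : ∃ e, d = e + 1 := ⟨d - 1, by omega⟩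
    have e1 : (π ^ n * w) ^ (e + 1) = (π ^ n) ^ e * (π ^ n * algebraMap F₀ F₁ u) := by
      rw [mul_pow, hw, pow_succ]; ring
    rw [e1]
    exact mul_mem (pow_mem (hpow n) e) hn
  have hwi : ∀ i : ℕ, ∃ n : ℕ, π ^ n * w ^ i ∈ B := by
    intro i
    induction i with
    | zero => exact ⟨0, by rw [pow_zero, pow_zero, one_mul]; exact one_mem B⟩
    | succ i ih =>
      rw [pow_succ]
      exact hmul _ _ ih hwP
  obtain ⟨c, rfl⟩ := hrepr z
  refine Finset.sum_induction _ (fun y => ∃ n : ℕ, π ^ n * y ∈ B) hadd ?_ ?_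
  · exact ⟨0, by rw [mul_zero]; exact zero_mem B⟩
  · intro i _
    exact hmul _ _ (h0 (c i)) (hwi i)

end Fermat.Agent.S44.X.Cover.Sheet
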