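/-
S44, block X, COVER, node SHEET (architect helper30).  Concrete leaf CONJ.
For `τ ∈ I`: `τ` acts on `μ_p` by `ζ ↦ ζ^m`, `p ∤ m`, and `τ(W t) = r (W t)^m` with `r ∈ FN L`.

Proof.  `τ ζ` is a primitive `p`-th root of unity (`IsPrimitiveRoot.map_of_injective`), so `τ ζ = ζ^m` with
`m < p`, `m.Coprime p` (`IsPrimitiveRoot.isPrimitiveRoot_iff` / `hζ.eq_pow_of_pow_eq_one`); every `ξ` with
`ξ^p = 1` is `ζ^k` so `τ ξ = ξ^m`: `ActsBy p τ m`.  `RootData.gal` gives `h` with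
`galF τ U = U^m h^p`; `E.coe_galF : (galF L τ x : LaurentSeries Kbar) = coeffMap τ x` (rfl-lemma), hence
`(gS τ W)^p = gS τ (W^p) = (W^m h)^p` in the field `LaurentSeries Kbar`; `W ≠ 0` (`nrm`), `h ≠ 0`
(`U ≠ 0`), so `ξ := gS τ W / (W^m h)` satisfies `ξ^p = 1`; `C ζ` (`= algebraMap Kbar _ ζ`) is a primitive
`p`-th root of unity of `LaurentSeries Kbar` (`IsPrimitiveRoot.map_of_injective`), so `ξ = (C ζ)^k`
(`IsPrimitiveRoot.eq_pow_of_pow_eq_one`).  `r := algebraMap Kbar (FN L) (ζ^k) * h * galF τ t / t^m`.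
-/
import Fermat.Agent.S44.X.Cover.Nodes

set_option autoImplicit false

noncomputable section

namespace Fermat.Agent.S44.X.Cover.Sheet

open ModularCurve AlgebraicCurve Fermat.Agent.S24 Fermat.Agent.GAL
open Fermat.Agent.BAD.Bridge

theorem exists_conj (I : Subgroup S44.GQ) (p L : ℕ) (hp : p.Prime) (U : FN L)
    (W : LaurentSeries Kbar) (hR : RootData I p L U W) (ζ : Kbar) (hζ : IsPrimitiveRoot ζ p)
    (t : FN L) (ht : t ≠ 0) (τ : S44.GQ) (hτ : τ ∈ I) :
    ∃ (m : ℕ) (r : FN L), ActsBy p τ m ∧ ¬ p ∣ m ∧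
      gS τ (W * (t : LaurentSeries Kbar)) = (r : LaurentSeries Kbar) * (W * t) ^ m := by
  haveI : NeZero p := ⟨hp.ne_zero⟩
  -- the cyclotomic character
  have hτζ : (τ ζ) ^ p = 1 := by rw [← map_pow, hζ.pow_eq_one, map_one]
  obtain ⟨m, -, hm⟩ := hζ.eq_pow_of_pow_eq_one hτζ
  have hact : ActsBy p τ m := by
    intro ξ hξ
    obtain ⟨k, -, rfl⟩ := hζ.eq_pow_of_pow_eq_one hξ
    rw [map_pow, ← hm, ← pow_mul, ← pow_mul, mul_comm]
  have hpm : ¬ p ∣ m := by
    intro hd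
    have h1 : τ ζ = 1 := by rw [← hm]; exact (hζ.pow_eq_one_iff_dvd m).2 hd
    have h2 : ζ = 1 := τ.injective (by rw [h1, map_one])
    exact hζ.ne_one hp.one_lt h2
  obtain ⟨h, hh⟩ := hR.gal τ hτ m hact
  -- non-vanishing
  have hW : W ≠ 0 := by
    intro h0
    have := hR.nrm
    rw [h0, HahnSeries.leadingCoeff_zero] at this
    exact zero_ne_one this
  have hU : U ≠ 0 := by
    intro h0
    have := hR.pow
    rw [h0] at this
    exact hW (pow_eq_zero_iff hp.ne_zero |>.1 this)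
  have hh0 : h ≠ 0 := by
    intro h0
    rw [h0, zero_pow hp.ne_zero, mul_zero] at hh
    exact hU ((map_eq_zero_iff _ (E.galF L τ).injective).1 hh)
  have hhS : (h : LaurentSeries Kbar) ≠ 0 := fun e => hh0 (Subtype.ext e)
  have htS : (t : LaurentSeries Kbar) ≠ 0 := fun e => ht (Subtype.ext e)
  -- the `p`-th powers agree
  have hpow : (gS τ W) ^ p = (W ^ m * (h : LaurentSeries Kbar)) ^ p := by
    have e1 : gS τ (U : LaurentSeries Kbar) = ((E.galF L τ U : FN L) : LaurentSeries Kbar) :=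
      (E.coe_galF L τ U).symm
    rw [← map_pow, hR.pow, e1, hh, mul_pow, ← pow_mul, mul_comm m p, pow_mul, hR.pow]
    rfl
  have hden : W ^ m * (h : LaurentSeries Kbar) ≠ 0 := mul_ne_zero (pow_ne_zero _ hW) hhS
  have hξ : (gS τ W / (W ^ m * (h : LaurentSeries Kbar))) ^ p = 1 := by
    rw [div_pow, hpow, div_self (pow_ne_zero _ hden)]
  have hζS : IsPrimitiveRoot (algebraMap Kbar (LaurentSeries Kbar) ζ) p :=
    hζ.map_of_injective (algebraMap Kbar (LaurentSeries Kbar)).injective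
  obtain ⟨k, -, hk⟩ := hζS.eq_pow_of_pow_eq_one hξ
  have hgW : gS τ W = algebraMap Kbar (LaurentSeries Kbar) ζ ^ k * (W ^ m * h) := by
    rw [hk, div_mul_cancel₀ _ hden]
  refine ⟨m, algebraMap Kbar (FN L) (ζ ^ k) * h * E.galF L τ t / t ^ m, hact, hpm, ?_⟩
  have e2 : gS τ (t : LaurentSeries Kbar) = ((E.galF L τ t : FN L) : LaurentSeries Kbar) :=
    (E.coe_galF L τ t).symm
  have e3 : ((algebraMap Kbar (FN L) (ζ ^ k) * h * E.galF L τ t / t ^ m : FN L) :
      LaurentSeries Kbar) = algebraMap Kbar (LaurentSeries Kbar) ζ ^ k * h *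
        ((E.galF L τ t : FN L) : LaurentSeries Kbar) / (t : LaurentSeries Kbar) ^ m := by
    rw [← map_pow]
    rfl
  rw [map_mul, hgW, e2, e3, mul_pow]
  field_simp

end Fermat.Agent.S44.X.Cover.Sheet

end
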