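/-
S44, block X, COVER, node SHEET (architect helper30).  Abstract leaf DENSE.
`F₁ = F₀[w]`; `w` is approximated multiplicatively by elements of `F₀` to every `π`-adic precision, and
every element of `F₁` is `π`-adically bounded: then `F₀` is multiplicatively dense in `F₁`.

Proof: `b = ∑_{i<d} f_i w^i`.  Choose `N` with `π^N * (f_i w^i / b) ∈ B` for all `i < d` (max of finitely
many exponents, `π ∈ B`).  Take `w₀` for `n = N + 1`: `w = w₀ (1 + π^n a)`, `a ∈ B`.  Then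
`w₀^i = w^i * e_i` with `e_i = (1 + π^n a)^(-i)`, `(e_i - 1)/π^n ∈ B` (`1 + π^n a` is a unit of `B` because
`v(π^n a) < 1`; `(1+π^n a)^i - 1 ∈ π^n B` by induction).  `b₀ := ∑ f_i w₀^i`;
`(b₀ - b)/b = ∑ (f_i w^i / b) (e_i - 1) = π * ∑ (π^N f_i w^i / b) ((e_i - 1)/π^n) ∈ π B`, so
`v(b₀/b - 1) < 1`, hence `v(b₀/b) = 1`, `b₀ ≠ 0` and `v(b/b₀ - 1) = v((b - b₀)/b) * v(b/b₀) < 1`.
-/
import Mathlib

set_option autoImplicit false

namespace Fermat.Agent.S44.X.Cover.Sheet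

theorem dense_of_approx_pow {F₁ : Type*} [Field F₁] (B : ValuationSubring F₁) (p s : F₁)
    (hp : p ∈ B) (hs : s ∈ B) (i : ℕ) : ∃ r ∈ B, (1 + p * s) ^ i = 1 + p * r := by
  induction i with
  | zero => exact ⟨0, B.zero_mem, by simp⟩
  | succ i ih =>
    obtain ⟨r, hr, e⟩ := ih
    refine ⟨r + s + p * r * s,
      B.add_mem _ _ (B.add_mem _ _ hr hs) (B.mul_mem _ _ (B.mul_mem _ _ hp hr) hs), ?_⟩
    rw [pow_succ, e]
    ring

theorem dense_of_approx {F₀ F₁ : Type*} [Field F₀] [Field F₁] [Algebra F₀ F₁]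
    (B : ValuationSubring F₁) (π : F₁) (hπ0 : π ≠ 0) (hπ : B.valuation π < 1) (w : F₁) (d : ℕ)
    (hrepr : ∀ z : F₁, ∃ c : ℕ → F₀, z = ∑ i ∈ Finset.range d, algebraMap F₀ F₁ (c i) * w ^ i)
    (harch : ∀ z : F₁, ∃ n : ℕ, π ^ n * z ∈ B)
    (happ : ∀ n : ℕ, ∃ w₀ : F₀, w₀ ≠ 0 ∧ (w / algebraMap F₀ F₁ w₀ - 1) / π ^ n ∈ B)
    (b : F₁) (hb : b ≠ 0) :
    ∃ b₀ : F₀, b₀ ≠ 0 ∧ B.valuation (b / algebraMap F₀ F₁ b₀ - 1) < 1 := by
  classical
  obtain ⟨c, hc⟩ := hrepr b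
  have hπB : π ∈ B := (B.valuation_le_one_iff π).1 hπ.le
  -- a common exponent
  choose m hm using fun i : ℕ => harch (algebraMap F₀ F₁ (c i) * w ^ i / b)
  obtain ⟨N, hN⟩ : ∃ N : ℕ, ∀ i ∈ Finset.range d, m i ≤ N :=
    ⟨(Finset.range d).sup m, fun i hi => Finset.le_sup (f := m) hi⟩
  have hz : ∀ i ∈ Finset.range d, π ^ N * (algebraMap F₀ F₁ (c i) * w ^ i / b) ∈ B := by
    intro i hi
    obtain ⟨k, hk⟩ := Nat.exists_eq_add_of_le (hN i hi)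
    rw [hk, pow_add, mul_comm (π ^ m i), mul_assoc]
    exact B.mul_mem _ _ (B.pow_mem hπB k) (hm i)
  obtain ⟨w₀, hw₀, ha⟩ := happ (N + 1)
  have hW₀0 : algebraMap F₀ F₁ w₀ ≠ 0 := (map_ne_zero _).2 hw₀
  have hpn0 : π ^ (N + 1) ≠ 0 := pow_ne_zero _ hπ0
  have hpnB : π ^ (N + 1) ∈ B := B.pow_mem hπB _
  obtain ⟨a, haB, htw⟩ : ∃ a ∈ B, w = algebraMap F₀ F₁ w₀ * (1 + π ^ (N + 1) * a) := by
    refine ⟨_, ha, ?_⟩
    field_simp
    ring
  obtain ⟨t, ht⟩ : ∃ t : F₁, t = 1 + π ^ (N + 1) * a := ⟨_, rfl⟩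
  rw [← ht] at htw
  have hlt : B.valuation (π ^ (N + 1) * a) < 1 := by
    rw [map_mul, map_pow]
    have h1 : B.valuation a ≤ 1 := (B.valuation_le_one_iff a).2 haB
    have h2 : B.valuation π ^ (N + 1) < 1 := pow_lt_one' hπ (Nat.succ_ne_zero N)
    exact lt_of_le_of_lt (mul_le_of_le_one_right' h1) h2
  have hvt : B.valuation t = 1 := by
    rw [ht]
    exact Valuation.map_one_add_of_lt _ hlt
  have ht0 : t ≠ 0 := by
    intro h
    rw [h, map_zero] at hvt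
    exact zero_ne_one hvt
  have htinv : t⁻¹ ∈ B := by
    rw [← B.valuation_le_one_iff, map_inv₀, hvt, inv_one]
  have hsB : -(a * t⁻¹) ∈ B := B.neg_mem _ (B.mul_mem _ _ haB htinv)
  have htinv_eq : t⁻¹ = 1 + π ^ (N + 1) * -(a * t⁻¹) := by
    have h1 : 1 + π ^ (N + 1) * -(a * t⁻¹) = (t - π ^ (N + 1) * a) * t⁻¹ := by
      rw [sub_mul, mul_inv_cancel₀ ht0]
      ring
    rw [h1, ht, add_sub_cancel_right, one_mul]
  choose r hrB hr using fun i => dense_of_approx_pow B (π ^ (N + 1)) (-(a * t⁻¹)) hpnB hsB i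
  have hB₀ : algebraMap F₀ F₁ (∑ i ∈ Finset.range d, c i * w₀ ^ i) =
      ∑ i ∈ Finset.range d, algebraMap F₀ F₁ (c i) * w ^ i * (1 + π ^ (N + 1) * r i) := by
    rw [map_sum]
    refine Finset.sum_congr rfl fun i _ => ?_
    rw [map_mul, map_pow, ← hr i, ← htinv_eq, htw, mul_pow, inv_pow, mul_assoc, mul_assoc,
      mul_inv_cancel₀ (pow_ne_zero i ht0), mul_one]
  obtain ⟨b₀, hb₀⟩ : ∃ b₀ : F₀, b₀ = ∑ i ∈ Finset.range d, c i * w₀ ^ i := ⟨_, rfl⟩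
  rw [← hb₀] at hB₀
  have h1 : algebraMap F₀ F₁ b₀ - b =
      ∑ i ∈ Finset.range d, algebraMap F₀ F₁ (c i) * w ^ i * (π ^ (N + 1) * r i) := by
    rw [hB₀]
    conv_lhs => rw [hc]
    rw [← Finset.sum_sub_distrib]
    exact Finset.sum_congr rfl fun i _ => by ring
  have hdiff : algebraMap F₀ F₁ b₀ / b - 1 =
      π * ∑ i ∈ Finset.range d, (π ^ N * (algebraMap F₀ F₁ (c i) * w ^ i / b)) * r i := by
    rw [div_sub_one hb, h1, Finset.sum_div, Finset.mul_sum]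
    exact Finset.sum_congr rfl fun i _ => by rw [pow_succ]; ring
  have hsumB : ∑ i ∈ Finset.range d, (π ^ N * (algebraMap F₀ F₁ (c i) * w ^ i / b)) * r i ∈ B :=
    sum_mem fun i hi => B.mul_mem _ _ (hz i hi) (hrB i)
  have hlt2 : B.valuation (algebraMap F₀ F₁ b₀ / b - 1) < 1 := by
    rw [hdiff, map_mul]
    exact lt_of_le_of_lt (mul_le_of_le_one_right' ((B.valuation_le_one_iff _).2 hsumB)) hπ
  have hv1 : B.valuation (algebraMap F₀ F₁ b₀ / b) = 1 := by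
    have h2 : algebraMap F₀ F₁ b₀ / b = 1 + (algebraMap F₀ F₁ b₀ / b - 1) := by ring
    rw [h2]
    exact Valuation.map_one_add_of_lt _ hlt2
  have hB₀0 : algebraMap F₀ F₁ b₀ ≠ 0 := by
    intro h
    rw [h, zero_div, map_zero] at hv1
    exact zero_ne_one hv1
  refine ⟨b₀, fun h => hB₀0 (by rw [h, map_zero]), ?_⟩
  have h3 : b / algebraMap F₀ F₁ b₀ - 1 =
      -((algebraMap F₀ F₁ b₀ / b - 1) * (algebraMap F₀ F₁ b₀ / b)⁻¹) := by
    field_simp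
    ring
  rw [h3, Valuation.map_neg, map_mul, map_inv₀, hv1, inv_one, mul_one]
  exact hlt2

end Fermat.Agent.S44.X.Cover.Sheet
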