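/-
S44, block X, COVER, node SHEET (architect helper30).  Abstract leaf EXT: a valuation ring of a field
extends to every extension field.  (Same proof as `S44.Depth.exists_ext`, helper162.)
-/
import Mathlib

set_option autoImplicit false

namespace Fermat.Agent.S44.X.Cover.Sheet

/-- existence of an extension of a valuation ring -/
theorem exists_ext {E₀ E : Type*} [Field E₀] [Field E] [Algebra E₀ E] (V₀ : ValuationSubring E₀) :
    ∃ V : ValuationSubring E, ∀ z : E₀, algebraMap E₀ E z ∈ V ↔ z ∈ V₀ := by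
  obtain ⟨V, h, hloc⟩ :=
    IsLocalRing.exists_factor_valuationRing ((algebraMap E₀ E).comp V₀.subtype)
  refine ⟨V, fun z => ⟨fun hz => ?_, fun hz => h ⟨z, hz⟩⟩⟩
  by_contra hzV
  have hz0 : z ≠ 0 := by
    rintro rfl
    exact hzV V₀.zero_mem
  have hinv : z⁻¹ ∈ V₀ := (V₀.mem_or_inv_mem z).resolve_left hzV
  have hunit : IsUnit (((algebraMap E₀ E).comp V₀.subtype).codRestrict V.toSubring h ⟨z⁻¹, hinv⟩) := by
    refine ⟨⟨_, ⟨algebraMap E₀ E z, hz⟩, ?_, ?_⟩, rfl⟩
    · apply Subtype.ext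
      show algebraMap E₀ E z⁻¹ * algebraMap E₀ E z = 1
      rw [← map_mul, inv_mul_cancel₀ hz0, map_one]
    · apply Subtype.ext
      show algebraMap E₀ E z * algebraMap E₀ E z⁻¹ = 1
      rw [← map_mul, mul_inv_cancel₀ hz0, map_one]
  obtain ⟨u, hu⟩ := hloc.map_nonunit _ hunit
  apply hzV
  have h1 : ((u : V₀) : E₀) * (((u⁻¹ : V₀ˣ) : V₀) : E₀) = 1 := by
    have := congrArg Subtype.val u.mul_inv
    exact this
  rw [hu] at h1
  have h2 : (((u⁻¹ : V₀ˣ) : V₀) : E₀) = z := by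
    have h3 : z⁻¹ * (((u⁻¹ : V₀ˣ) : V₀) : E₀) = 1 := h1
    field_simp at h3
    exact h3
  rw [← h2]
  exact ((u⁻¹ : V₀ˣ) : V₀).2

end Fermat.Agent.S44.X.Cover.Sheet
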