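/-
S44, block X, COVER, node SHEET (architect helper30).  Abstract leaf IDEM: the approximate idempotent
`idem p y = (1/p) ∑_{i<p} y^i`.

* `idem_one`: `y = 1 + p a`, `a ∈ B`: `∑_{i<p} y^i = ((1+pa)^p - 1)/(pa) = ∑_{k≥1} C(p,k) (pa)^(k-1)`,
  so `idem p y - 1 = ∑_{k=2}^{p} C(p,k) p^(k-2) a^(k-1)`; `p ∣ C(p,k)` for `2 ≤ k < p`, and for `k = p`
  the factor `p^(p-2)` is divisible by `p` since `p ≥ 3`.  (Alternative without binomials:
  `y^i - 1 - i (y - 1) ∈ p² B` by induction on `i`; `∑_{i<p} i = p (p-1)/2`.)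
* `idem_zeta`: `idem p (ξ y) * p * (ξ y - 1) = (ξ y)^p - 1 = y^p - 1` (`geom_sum_mul`), `ξ = ζ^k ≠ 1`;
  `ξ y - 1 = (ξ - 1) + ξ (y - 1)`, `v(ξ (y-1)) ≤ v(p) = v(ξ-1)^(p-1) < v(ξ - 1)` (`val_zeta_sub` with
  `i = k, j = 0`; `p - 1 ≥ 2`), so `v(ξ y - 1) = v(ξ - 1) =: λ` and
  `v(idem) ≤ v(p)^2 / (v(p) λ) = λ^(p-2) < 1`.
-/
import Fermat.Agent.S44.X.Cover.Sheet.Zeta

set_option autoImplicit false

namespace Fermat.Agent.S44.X.Cover.Sheet

/-- the approximate idempotent -/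
noncomputable def idem {F : Type*} [Field F] (p : ℕ) (y : F) : F :=
  (∑ i ∈ Finset.range p, y ^ i) / (p : F)

theorem idem_one {F : Type*} [Field F] (B : ValuationSubring F) {p : ℕ} (hp : p.Prime)
    (hp2 : p ≠ 2) (hp0 : (p : F) ≠ 0) (hpB : B.valuation (p : F) < 1) {y : F}
    (hy : (y - 1) / (p : F) ∈ B) : B.valuation (idem p y - 1) < 1 := by
  set a : F := (y - 1) / (p : F) with ha
  have hya : y = 1 + (p : F) * a := by
    rw [ha]; field_simp; ring
  have hnat : ∀ n : ℕ, (n : F) ∈ B := fun n => natCast_mem B n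
  have key : ∀ i : ℕ, ∃ b ∈ B, y ^ i = 1 + (i : F) * ((p : F) * a) + (p : F) ^ 2 * b := by
    intro i
    induction i with
    | zero => exact ⟨0, B.zero_mem, by simp⟩
    | succ i ih =>
      obtain ⟨b, hb, h⟩ := ih
      refine ⟨(i : F) * a ^ 2 + b * (1 + (p : F) * a),
        B.add_mem _ _ (B.mul_mem _ _ (hnat i) (pow_mem hy 2))
          (B.mul_mem _ _ hb (B.add_mem _ _ B.one_mem (B.mul_mem _ _ (hnat p) hy))), ?_⟩
      rw [pow_succ, h]
      nth_rewrite 1 [hya]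
      push_cast
      ring
  have hsum : ∀ n : ℕ, ∃ c ∈ B, ∑ i ∈ Finset.range n, y ^ i =
      (n : F) + ((∑ i ∈ Finset.range n, i : ℕ) : F) * ((p : F) * a) + (p : F) ^ 2 * c := by
    intro n
    induction n with
    | zero => exact ⟨0, B.zero_mem, by simp⟩
    | succ n ih =>
      obtain ⟨c, hc, h⟩ := ih
      obtain ⟨b, hb, h'⟩ := key n
      refine ⟨c + b, B.add_mem _ _ hc hb, ?_⟩
      rw [Finset.sum_range_succ, Finset.sum_range_succ, h, h']
      push_cast
      ring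
  obtain ⟨m, hm⟩ := hp.odd_of_ne_two hp2
  have hid : ∑ i ∈ Finset.range p, i = p * m := by
    have h := Finset.sum_range_id_mul_two p
    have h1 : p - 1 = m * 2 := by omega
    rw [h1, ← mul_assoc] at h
    exact Nat.eq_of_mul_eq_mul_right (by norm_num) h
  obtain ⟨c, hc, h⟩ := hsum p
  have hfin : idem p y - 1 = (p : F) * ((m : F) * a + c) := by
    rw [idem, h, hid]
    push_cast
    field_simp
    ring
  rw [hfin, map_mul]
  have h1 : B.valuation ((m : F) * a + c) ≤ 1 :=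
    (B.valuation_le_one_iff _).2 (B.add_mem _ _ (B.mul_mem _ _ (hnat m) hy) hc)
  exact lt_of_le_of_lt (mul_le_of_le_one_right' h1) hpB

theorem idem_zeta {F : Type*} [Field F] (B : ValuationSubring F) {p : ℕ} (hp : p.Prime)
    (hp2 : p ≠ 2) {ζ : F} (hζ : IsPrimitiveRoot ζ p) (hpB : B.valuation (p : F) < 1) {y : F}
    (hy : (y - 1) / (p : F) ∈ B) (hy2 : (y ^ p - 1) / (p : F) ^ 2 ∈ B) {k : ℕ} (hk : ¬ p ∣ k) :
    B.valuation (idem p (ζ ^ k * y)) < 1 := by
  have hp3 : 3 ≤ p := by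
    have := hp.two_le
    omega
  set ξ : F := ζ ^ k with hξ
  have hξp : ξ ^ p = 1 := by rw [hξ, ← pow_mul, mul_comm, pow_mul, hζ.pow_eq_one, one_pow]
  have hξ1 : ξ - 1 ≠ 0 := by
    intro h
    exact hk ((hζ.pow_eq_one_iff_dvd k).1 (sub_eq_zero.1 h))
  have hl : B.valuation (ξ - 1) ^ (p - 1) = B.valuation (p : F) := by
    have h := val_zeta_sub B hp hζ (i := k) (j := 0) (by
      intro h
      exact hk ((Nat.modEq_zero_iff_dvd).1 h))
    rwa [pow_zero] at h
  set l := B.valuation (ξ - 1) with hldef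
  have hl0 : 0 < l := zero_lt_iff.2 ((Valuation.ne_zero_iff _).2 hξ1)
  have hl1 : l < 1 := by
    by_contra h
    rw [not_lt] at h
    have h2 := one_le_pow_of_one_le' h (p - 1)
    rw [hl] at h2
    exact absurd hpB (not_lt.2 h2)
  have hpl : B.valuation (p : F) < l := by
    have e : p - 1 = (p - 2) + 1 := by omega
    rw [← hl, e, pow_succ]
    calc l ^ (p - 2) * l < 1 * l :=
          mul_lt_mul_of_pos_right (pow_lt_one' hl1 (by omega)) hl0
      _ = l := one_mul l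
  have hp0 : (p : F) ≠ 0 := by
    intro h
    rw [h, map_zero] at hl
    exact (pow_ne_zero _ hl0.ne') hl
  have hvξ : B.valuation ξ = 1 := by
    have h := congrArg B.valuation hξp
    rw [map_pow, map_one] at h
    exact (pow_eq_one_iff.1 h).resolve_right hp.ne_zero
  have hvy : B.valuation (y - 1) ≤ B.valuation (p : F) := by
    have h := (B.valuation_le_one_iff _).2 hy
    rw [map_div₀] at h
    exact (div_le_one₀ (zero_lt_iff.2 ((Valuation.ne_zero_iff _).2 hp0))).1 h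
  have hsum : B.valuation (ξ * y - 1) = l := by
    have e : ξ * y - 1 = (ξ - 1) + ξ * (y - 1) := by ring
    rw [e]
    refine Valuation.map_add_eq_of_lt_left _ ?_
    rw [map_mul, hvξ, one_mul]
    exact lt_of_le_of_lt hvy hpl
  have hne : ξ * y - 1 ≠ 0 := by
    intro h
    rw [h, map_zero] at hsum
    exact hl0.ne hsum
  have hgeom : (∑ i ∈ Finset.range p, (ξ * y) ^ i) * (ξ * y - 1) = y ^ p - 1 := by
    rw [geom_sum_mul, mul_pow, hξp, one_mul]
  have hid : idem p (ξ * y) = (y ^ p - 1) / (p : F) ^ 2 * ((p : F) / (ξ * y - 1)) := by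
    rw [idem, ← hgeom]
    field_simp
  rw [hid, map_mul]
  have h1 := (B.valuation_le_one_iff _).2 hy2
  have h2 : B.valuation ((p : F) / (ξ * y - 1)) < 1 := by
    rw [map_div₀, hsum]
    exact (div_lt_one₀ hl0).2 hpl
  calc B.valuation ((y ^ p - 1) / (p : F) ^ 2) * B.valuation ((p : F) / (ξ * y - 1))
      ≤ 1 * B.valuation ((p : F) / (ξ * y - 1)) := mul_le_mul' h1 le_rfl
    _ = B.valuation ((p : F) / (ξ * y - 1)) := one_mul _
    _ < 1 := h2

end Fermat.Agent.S44.X.Cover.Sheet
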