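/-
S44, block X, COVER, node SHEET (architect helper30).  The abstract core of NodeSheet.
-/
import Fermat.Agent.S44.X.Cover.Nodes
import Fermat.Agent.S44.X.Cover.Sheet.Ext
import Fermat.Agent.S44.X.Cover.Sheet.Root
import Fermat.Agent.S44.X.Cover.Sheet.Idem
import Fermat.Agent.S44.X.Cover.Sheet.Arch
import Fermat.Agent.S44.X.Cover.Sheet.Dense

set_option autoImplicit false

noncomputable section

namespace Fermat.Agent.S44.X.Cover.Sheet

section Calc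

variable {F : Type*} [Field F] (B : ValuationSubring F)

theorem core_root_mem {ξ : F} {n : ℕ} (hn : n ≠ 0) (h : ξ ^ n = 1) : ξ ∈ B := by
  rcases B.mem_or_inv_mem ξ with h1 | h1
  · exact h1
  · have h2 : ξ = ξ⁻¹ ^ (n - 1) := by
      have hξ : ξ ≠ 0 := by
        rintro rfl
        rw [zero_pow hn] at h
        exact zero_ne_one h
      obtain ⟨k, rfl⟩ := Nat.exists_eq_succ_of_ne_zero hn
      rw [Nat.succ_sub_one, inv_pow]
      rw [pow_succ] at h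
      field_simp
      rw [mul_comm]
      exact h
    rw [h2]
    exact pow_mem h1 _

theorem core_deep_mul {π a b : F} (hπ : π ∈ B) (hπ0 : π ≠ 0) (ha : (a - 1) / π ∈ B)
    (hb : (b - 1) / π ∈ B) : (a * b - 1) / π ∈ B := by
  have h : (a * b - 1) / π = π * ((a - 1) / π) * ((b - 1) / π) + (a - 1) / π + (b - 1) / π := by
    field_simp
    ring
  rw [h]
  exact B.add_mem _ _ (B.add_mem _ _ (B.mul_mem _ _ (B.mul_mem _ _ hπ ha) hb) ha) hb

theorem core_deep_pow {π a : F} (hπ : π ∈ B) (hπ0 : π ≠ 0) (ha : (a - 1) / π ∈ B) (m : ℕ) :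
    (a ^ m - 1) / π ∈ B := by
  induction m with
  | zero =>
    rw [pow_zero, sub_self, zero_div]
    exact B.zero_mem
  | succ m ih =>
    rw [pow_succ]
    exact core_deep_mul B hπ hπ0 ih ha

theorem core_val_eq_one {x : F} (h : B.valuation (x - 1) < 1) : B.valuation x = 1 := by
  have h2 := Valuation.map_add_eq_of_lt_left (v := B.valuation) (x := 1) (y := x - 1)
    (by rw [map_one]; exact h)
  rw [map_one, add_sub_cancel] at h2
  exact h2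

theorem core_map_idem {F' : Type*} [Field F'] (f : F →+* F') (p : ℕ) (y : F) :
    f (idem p y) = idem p (f y) := by
  unfold idem
  rw [map_div₀, map_sum, map_natCast]
  simp only [map_pow]

end Calc

section Core

variable {E F F₀ F₁ : Type*} [Field E] [Field F] [Field F₀] [Field F₁] [Algebra E F]
  [Algebra F₀ F₁]

/-- powers of the deck transformation on `w`. -/
theorem core_gamma_pow_w (γ : F₁ ≃ₐ[F₀] F₁) (ζ : F₀) (w : F₁)
    (hγw : γ w = algebraMap F₀ F₁ ζ * w) (k : ℕ) :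
    (γ ^ k) w = algebraMap F₀ F₁ (ζ ^ k) * w := by
  induction k with
  | zero => simp
  | succ k ih =>
    rw [pow_succ', AlgEquiv.mul_apply, ih, map_mul, AlgEquiv.commutes, hγw, pow_succ, map_mul]
    ring

theorem core_gamma_pow_eq_one (p : ℕ) (γ : F₁ ≃ₐ[F₀] F₁) (ζ : F₀) (hζ : ζ ^ p = 1) (w : F₁)
    (hγw : γ w = algebraMap F₀ F₁ ζ * w)
    (hrepr : ∀ z : F₁, ∃ c : ℕ → F₀, z = ∑ i ∈ Finset.range p, algebraMap F₀ F₁ (c i) * w ^ i) :
    γ ^ p = 1 := by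
  ext z
  obtain ⟨c, rfl⟩ := hrepr z
  rw [map_sum, AlgEquiv.one_apply]
  refine Finset.sum_congr rfl fun i _ => ?_
  rw [map_mul, map_pow, AlgEquiv.commutes, core_gamma_pow_w γ ζ w hγw, hζ, map_one, one_mul]

theorem core_comm_pow (bY : F →+* F₁) (σ : F ≃ₐ[E] F) (γ : F₁ ≃ₐ[F₀] F₁)
    (hσγ : ∀ z, bY (σ z) = γ (bY z)) (k : ℕ) (z : F) : bY ((σ ^ k) z) = (γ ^ k) (bY z) := by
  induction k with
  | zero => simp
  | succ k ih => rw [pow_succ', AlgEquiv.mul_apply, hσγ, ih, pow_succ', AlgEquiv.mul_apply]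

/-- the normalised extension of `G`. -/
theorem core_exists_Wb (p : ℕ) (hp : p.Prime) (γ : F₁ ≃ₐ[F₀] F₁) (ζ : F₀)
    (hζ : IsPrimitiveRoot ζ p) (u : F₀) (w : F₁) (hw : w ^ p = algebraMap F₀ F₁ u)
    (hγw : γ w = algebraMap F₀ F₁ ζ * w) (G : ValuationSubring F₀) (t : F₀)
    (ht : (u * t ^ p - 1) / (p : F₀) ^ 2 ∈ G) :
    ∃ Wb : ValuationSubring F₁, (∀ z : F₀, algebraMap F₀ F₁ z ∈ Wb ↔ z ∈ G) ∧
      (w * algebraMap F₀ F₁ t - 1) / (p : F₁) ∈ Wb := by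
  obtain ⟨Wb0, h0⟩ := exists_ext (E := F₁) G
  have hζ1 : IsPrimitiveRoot (algebraMap F₀ F₁ ζ) p :=
    hζ.map_of_injective (algebraMap F₀ F₁).injective
  have hx : ((w * algebraMap F₀ F₁ t) ^ p - 1) / (p : F₁) ^ (1 + 1) ∈ Wb0 := by
    have h1 : ((w * algebraMap F₀ F₁ t) ^ p - 1) / (p : F₁) ^ (1 + 1) =
        algebraMap F₀ F₁ ((u * t ^ p - 1) / (p : F₀) ^ 2) := by
      rw [mul_pow, hw]
      simp only [map_div₀, map_sub, map_mul, map_pow, map_one, map_natCast]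
    rw [h1]
    exact (h0 _).mpr ht
  obtain ⟨i, hi, hxi⟩ := deep_root Wb0 hp hζ1 1 _ hx
  rw [pow_one] at hxi
  refine ⟨Wb0.comap ((γ ^ (p - i) : F₁ ≃ₐ[F₀] F₁) : F₁ →+* F₁), fun z => ?_, ?_⟩
  · rw [ValuationSubring.mem_comap]
    show (γ ^ (p - i)) (algebraMap F₀ F₁ z) ∈ Wb0 ↔ _
    rw [AlgEquiv.commutes]
    exact h0 z
  · rw [ValuationSubring.mem_comap]
    show (γ ^ (p - i)) ((w * algebraMap F₀ F₁ t - 1) / (p : F₁)) ∈ Wb0
    rw [map_div₀, map_sub, map_mul, map_one, map_natCast, AlgEquiv.commutes,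
      core_gamma_pow_w γ ζ w hγw]
    have h2 : (algebraMap F₀ F₁ (ζ ^ (p - i)) * w * algebraMap F₀ F₁ t - 1) / (p : F₁) =
        algebraMap F₀ F₁ ζ ^ (p - i) * ((w * algebraMap F₀ F₁ t - algebraMap F₀ F₁ ζ ^ i) / (p : F₁)) := by
      have h3 : algebraMap F₀ F₁ ζ ^ (p - i) * algebraMap F₀ F₁ ζ ^ i = 1 := by
        rw [← pow_add, Nat.sub_add_cancel hi.le, hζ1.pow_eq_one]
      rw [map_pow, mul_div_assoc', mul_sub, h3]
      ring
    rw [h2]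
    exact Wb0.mul_mem _ _ (pow_mem (core_root_mem Wb0 hp.ne_zero hζ1.pow_eq_one) _) hxi

/-- the separating element. -/
theorem core_sep (p : ℕ) (hp : p.Prime) (hp2 : p ≠ 2) (γ : F₁ ≃ₐ[F₀] F₁) (ζ : F₀)
    (hζ : IsPrimitiveRoot ζ p) (u : F₀) (w : F₁) (hw : w ^ p = algebraMap F₀ F₁ u)
    (hγw : γ w = algebraMap F₀ F₁ ζ * w) (G : ValuationSubring F₀)
    (Wb : ValuationSubring F₁) (hWb : ∀ z : F₀, algebraMap F₀ F₁ z ∈ Wb ↔ z ∈ G)
    (hpB : Wb.valuation (p : F₁) < 1) (t : F₀)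
    (hx : (w * algebraMap F₀ F₁ t - 1) / (p : F₁) ∈ Wb) (s : Finset F₁) (hs : s.Nonempty)
    (hall : ∀ x ∈ s, ∃ (m : ℕ) (r : F₀), ¬ p ∣ m ∧ (r - 1) / (p : F₀) ∈ G ∧
         (r ^ p * (u * t ^ p) ^ m - 1) / (p : F₀) ^ 2 ∈ G ∧
         x = idem p (algebraMap F₀ F₁ r * (w * algebraMap F₀ F₁ t) ^ m)) :
    Wb.valuation (∏ x ∈ s, x) = 1 ∧
      ∀ n : ℕ, ¬ p ∣ n → Wb.valuation ((γ ^ n) (∏ x ∈ s, x)) < 1 := by
  have hζ1 : IsPrimitiveRoot (algebraMap F₀ F₁ ζ) p :=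
    hζ.map_of_injective (algebraMap F₀ F₁).injective
  have hp0 : (p : F₁) ≠ 0 := by
    have : NeZero p := ⟨hp.ne_zero⟩
    have := hζ1.neZero'
    exact NeZero.ne _
  have hpm : (p : F₁) ∈ Wb := (Wb.valuation_le_one_iff _).mp hpB.le
  have key : ∀ x ∈ s, ∃ (m : ℕ) (y : F₁), ¬ p ∣ m ∧ (y - 1) / (p : F₁) ∈ Wb ∧
      (y ^ p - 1) / (p : F₁) ^ 2 ∈ Wb ∧ x = idem p y ∧
      ∀ n : ℕ, (γ ^ n) y = algebraMap F₀ F₁ ζ ^ (n * m) * y := by
    intro x hxs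
    obtain ⟨m, r, hm, hr, hr2, rfl⟩ := hall x hxs
    refine ⟨m, _, hm, ?_, ?_, rfl, fun n => ?_⟩
    · refine core_deep_mul Wb hpm hp0 ?_ (core_deep_pow Wb hpm hp0 hx m)
      have h1 : (algebraMap F₀ F₁ r - 1) / (p : F₁) = algebraMap F₀ F₁ ((r - 1) / (p : F₀)) := by
        simp only [map_div₀, map_sub, map_one, map_natCast]
      rw [h1]
      exact (hWb _).mpr hr
    · have h1 : ((algebraMap F₀ F₁ r * (w * algebraMap F₀ F₁ t) ^ m) ^ p - 1) / (p : F₁) ^ 2 =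
          algebraMap F₀ F₁ ((r ^ p * (u * t ^ p) ^ m - 1) / (p : F₀) ^ 2) := by
        simp only [map_div₀, map_sub, map_mul, map_pow, map_one, map_natCast]
        rw [← hw]
        ring
      rw [h1]
      exact (hWb _).mpr hr2
    · rw [map_mul, map_pow, map_mul, AlgEquiv.commutes, AlgEquiv.commutes,
        core_gamma_pow_w γ ζ w hγw, map_pow, pow_mul]
      ring
  constructor
  · rw [map_prod]
    refine Finset.prod_eq_one fun x hxs => ?_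
    obtain ⟨m, y, -, hy, -, rfl, -⟩ := key x hxs
    exact core_val_eq_one Wb (idem_one Wb hp hp2 hp0 hpB hy)
  · intro n hn
    rw [map_prod, map_prod]
    refine Finset.prod_induction_nonempty (fun x => Wb.valuation ((γ ^ n) x)) (fun a => a < 1)
      (fun a b ha hb => mul_lt_one' ha hb) hs fun x hxs => ?_
    obtain ⟨m, y, hm, hy, hy2, rfl, hγ⟩ := key x hxs
    have h1 : (γ ^ n) (idem p y) = idem p ((γ ^ n) y) :=
      core_map_idem ((γ ^ n : F₁ ≃ₐ[F₀] F₁) : F₁ →+* F₁) p y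
    rw [h1, hγ]
    exact idem_zeta Wb hp hp2 hζ1 hpB hy hy2 (fun h => (hp.dvd_mul.mp h).elim hn hm)

/-- the sheets from one valuation ring and a separating element. -/
theorem core_presheets (p : ℕ) (hp : p.Prime) (σ : F ≃ₐ[E] F) (hσ : σ ^ p = 1)
    (V : ValuationSubring E) (W0 : ValuationSubring F)
    (hlies : ∀ z : E, algebraMap E F z ∈ W0 ↔ z ∈ V) (z : F) (hz : z ∈ W0)
    (hsep : ∀ n : ℕ, ¬ p ∣ n → (σ ^ n) z ∉ W0) :
    PreSheets p σ V (fun j : ZMod p => W0.comap ((σ ^ j.val : F ≃ₐ[E] F) : F →+* F)) := by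
  have : NeZero p := ⟨hp.ne_zero⟩
  have hmem : ∀ (j : ZMod p) (y : F),
      y ∈ W0.comap ((σ ^ j.val : F ≃ₐ[E] F) : F →+* F) ↔ (σ ^ j.val) y ∈ W0 := fun j y => Iff.rfl
  have hmod : ∀ n : ℕ, σ ^ ((n : ZMod p).val) = σ ^ n := by
    intro n
    rw [ZMod.val_natCast]
    exact (pow_eq_pow_mod n hσ).symm
  refine ⟨fun i y => ?_, fun i y => ?_, fun a b hab => ?_⟩
  · rw [hmem, AlgEquiv.commutes]
    exact hlies y
  · rw [hmem, hmem]
    have h1 : i + 1 = ((i.val + 1 : ℕ) : ZMod p) := by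
      rw [Nat.cast_add, ZMod.natCast_zmod_val, Nat.cast_one]
    rw [h1, hmod, pow_succ, AlgEquiv.mul_apply]
  · by_contra hne
    have hab' : ∀ y : F, (σ ^ a.val) y ∈ W0 ↔ (σ ^ b.val) y ∈ W0 := by
      intro y
      rw [← hmem, ← hmem]
      have := congrFun (congrArg (fun (S : ValuationSubring F) => (· ∈ S)) hab) y
      exact iff_of_eq this
    have ha : a.val < p := ZMod.val_lt a
    have h1 := hab' ((σ ^ (p - a.val)) z)
    rw [← AlgEquiv.mul_apply, ← AlgEquiv.mul_apply, ← pow_add, ← pow_add,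
      Nat.add_sub_cancel' ha.le, hσ, AlgEquiv.one_apply] at h1
    refine hsep _ ?_ (h1.mp hz)
    intro hdvd
    apply hne
    have h2 : ((b.val + (p - a.val) : ℕ) : ZMod p) = 0 := (ZMod.natCast_eq_zero_iff _ _).mpr hdvd
    rw [Nat.cast_add, Nat.cast_sub ha.le, ZMod.natCast_zmod_val, ZMod.natCast_zmod_val,
      ZMod.natCast_self] at h2
    have h3 : b - a = 0 := by
      rw [← h2]
      ring
    exact (sub_eq_zero.mp h3).symm

/-- density. -/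
theorem core_dense (p : ℕ) (hp : p.Prime) (ζ : F₀) (hζ : IsPrimitiveRoot ζ p) (u : F₀) (w : F₁)
    (hw : w ^ p = algebraMap F₀ F₁ u)
    (hrepr : ∀ z : F₁, ∃ c : ℕ → F₀, z = ∑ i ∈ Finset.range p, algebraMap F₀ F₁ (c i) * w ^ i)
    (G : ValuationSubring F₀) (harch : ∀ f : F₀, ∃ n : ℕ, (p : F₀) ^ n * f ∈ G)
    (hdeep : ∀ n : ℕ, ∃ t : F₀, t ≠ 0 ∧ (u * t ^ p - 1) / (p : F₀) ^ n ∈ G)
    (Wb : ValuationSubring F₁) (hWb : ∀ z : F₀, algebraMap F₀ F₁ z ∈ Wb ↔ z ∈ G)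
    (hpB : Wb.valuation (p : F₁) < 1) (b : F₁) (hb : b ≠ 0) :
    ∃ b₀ : F₀, b₀ ≠ 0 ∧ Wb.valuation (b / algebraMap F₀ F₁ b₀ - 1) < 1 := by
  have hζ1 : IsPrimitiveRoot (algebraMap F₀ F₁ ζ) p :=
    hζ.map_of_injective (algebraMap F₀ F₁).injective
  have hp0 : (p : F₁) ≠ 0 := by
    have : NeZero p := ⟨hp.ne_zero⟩
    have := hζ1.neZero'
    exact NeZero.ne _
  have hpm : (p : F₁) ∈ Wb := (Wb.valuation_le_one_iff _).mp hpB.le
  have hA : ∀ z : F₁, ∃ n : ℕ, (p : F₁) ^ n * z ∈ Wb := by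
    refine arch_of_repr Wb (p : F₁) hpm w p hp.ne_zero u hw (fun f => ?_) hrepr
    obtain ⟨n, hn⟩ := harch f
    refine ⟨n, ?_⟩
    have h1 : (p : F₁) ^ n * algebraMap F₀ F₁ f = algebraMap F₀ F₁ ((p : F₀) ^ n * f) := by
      simp only [map_mul, map_pow, map_natCast]
    rw [h1]
    exact (hWb _).mpr hn
  refine dense_of_approx Wb (p : F₁) hp0 hpB w p hrepr hA (fun n => ?_) b hb
  obtain ⟨t, ht0, ht⟩ := hdeep (n + 1)
  have hx : ((w * algebraMap F₀ F₁ t) ^ p - 1) / (p : F₁) ^ (n + 1) ∈ Wb := by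
    have h1 : ((w * algebraMap F₀ F₁ t) ^ p - 1) / (p : F₁) ^ (n + 1) =
        algebraMap F₀ F₁ ((u * t ^ p - 1) / (p : F₀) ^ (n + 1)) := by
      rw [mul_pow, hw]
      simp only [map_div₀, map_sub, map_mul, map_pow, map_one, map_natCast]
    rw [h1]
    exact (hWb _).mpr ht
  obtain ⟨i, hi, hxi⟩ := deep_root Wb hp hζ1 n _ hx
  have hζ0 : ζ ≠ 0 := hζ.ne_zero hp.ne_zero
  refine ⟨ζ ^ i / t, div_ne_zero (pow_ne_zero _ hζ0) ht0, ?_⟩
  have ht1 : algebraMap F₀ F₁ t ≠ 0 := (map_ne_zero _).mpr ht0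
  have hζ10 : algebraMap F₀ F₁ ζ ≠ 0 := (map_ne_zero _).mpr hζ0
  have h2 : (w / algebraMap F₀ F₁ (ζ ^ i / t) - 1) / (p : F₁) ^ n =
      algebraMap F₀ F₁ ζ ^ (p - i) *
        ((w * algebraMap F₀ F₁ t - algebraMap F₀ F₁ ζ ^ i) / (p : F₁) ^ n) := by
    have h3 : algebraMap F₀ F₁ ζ ^ (p - i) * algebraMap F₀ F₁ ζ ^ i = 1 := by
      rw [← pow_add, Nat.sub_add_cancel hi.le, hζ1.pow_eq_one]
    have h4 : algebraMap F₀ F₁ ζ ^ (p - i) = (algebraMap F₀ F₁ ζ ^ i)⁻¹ :=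
      eq_inv_of_mul_eq_one_left h3
    rw [h4, map_div₀, map_pow]
    field_simp
  rw [h2]
  exact Wb.mul_mem _ _ (pow_mem (core_root_mem Wb hp.ne_zero hζ1.pow_eq_one) _) hxi

/-- **The abstract core of NodeSheet.** -/
theorem core (bX : E →+* F₀) (bY : F →+* F₁)
    (hb : ∀ z, bY (algebraMap E F z) = algebraMap F₀ F₁ (bX z))
    (p : ℕ) (hp : p.Prime) (hp2 : p ≠ 2)
    (σ : F ≃ₐ[E] F) (γ : F₁ ≃ₐ[F₀] F₁) (hσγ : ∀ z, bY (σ z) = γ (bY z))
    (ζ : F₀) (hζ : IsPrimitiveRoot ζ p) (u : F₀) (w : F₁) (hw : w ^ p = algebraMap F₀ F₁ u)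
    (hγw : γ w = algebraMap F₀ F₁ ζ * w)
    (hrepr : ∀ z : F₁, ∃ c : ℕ → F₀, z = ∑ i ∈ Finset.range p, algebraMap F₀ F₁ (c i) * w ^ i)
    (G : ValuationSubring F₀) (hpG : G.valuation (p : F₀) < 1)
    (harch : ∀ f : F₀, ∃ n : ℕ, (p : F₀) ^ n * f ∈ G)
    (hdeep : ∀ n : ℕ, ∃ t : F₀, t ≠ 0 ∧ (u * t ^ p - 1) / (p : F₀) ^ n ∈ G)
    (hconj : ∀ t : F₀, t ≠ 0 → (u * t ^ p - 1) / (p : F₀) ^ 2 ∈ G →
      ∃ (s : Finset F₁) (z : F), s.Nonempty ∧ bY z = ∏ x ∈ s, x ∧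
        ∀ x ∈ s, ∃ (m : ℕ) (r : F₀), ¬ p ∣ m ∧ (r - 1) / (p : F₀) ∈ G ∧
          (r ^ p * (u * t ^ p) ^ m - 1) / (p : F₀) ^ 2 ∈ G ∧
          x = idem p (algebraMap F₀ F₁ r * (w * algebraMap F₀ F₁ t) ^ m)) :
    ∃ (Wv : ZMod p → ValuationSubring F) (Wb : ValuationSubring F₁),
      PreSheets p σ (G.comap bX) Wv ∧ (∀ z : F₀, algebraMap F₀ F₁ z ∈ Wb ↔ z ∈ G) ∧
      (∀ z : F, z ∈ Wv 0 ↔ bY z ∈ Wb) ∧
      ∀ b : F₁, b ≠ 0 → ∃ b₀ : F₀, b₀ ≠ 0 ∧ Wb.valuation (b / algebraMap F₀ F₁ b₀ - 1) < 1 := by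
  have : NeZero p := ⟨hp.ne_zero⟩
  obtain ⟨t, ht0, ht⟩ := hdeep 2
  obtain ⟨Wb, hWb, hx⟩ := core_exists_Wb p hp γ ζ hζ u w hw hγw G t ht
  have hpB : Wb.valuation (p : F₁) < 1 := by
    by_contra hcon
    rw [not_lt] at hcon
    have hp0 : (p : F₀) ≠ 0 := by
      have := hζ.neZero'
      exact NeZero.ne _
    have h1 : ((p : F₀))⁻¹ ∈ G := by
      rw [← hWb, map_inv₀, map_natCast, ← Wb.valuation_le_one_iff, map_inv₀]
      exact inv_le_one_of_one_le₀ hcon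
    have h2 : G.valuation ((p : F₀))⁻¹ ≤ 1 := (G.valuation_le_one_iff _).mpr h1
    have h3 : G.valuation ((p : F₀) * (p : F₀)⁻¹) < 1 := by
      rw [map_mul]
      exact mul_lt_one_of_lt_of_le hpG h2
    rw [mul_inv_cancel₀ hp0, map_one] at h3
    exact lt_irrefl _ h3
  obtain ⟨s, z, hs, hz, hall⟩ := hconj t ht0 ht
  obtain ⟨hz1, hz2⟩ := core_sep p hp hp2 γ ζ hζ u w hw hγw G Wb hWb hpB t hx s hs hall
  have hγp : γ ^ p = 1 := core_gamma_pow_eq_one p γ ζ hζ.pow_eq_one w hγw hrepr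
  have hσp : σ ^ p = 1 := by
    ext y
    apply bY.injective
    rw [core_comm_pow bY σ γ hσγ, hγp, AlgEquiv.one_apply, AlgEquiv.one_apply]
  refine ⟨fun j : ZMod p => (Wb.comap bY).comap ((σ ^ j.val : F ≃ₐ[E] F) : F →+* F), Wb,
    core_presheets p hp σ hσp (G.comap bX) (Wb.comap bY) (fun y => ?_) z⁻¹ ?_ (fun n hn => ?_),
    hWb, fun y => ?_, fun b hb' => core_dense p hp ζ hζ u w hw hrepr G harch hdeep Wb hWb hpB b hb'⟩
  · rw [ValuationSubring.mem_comap, ValuationSubring.mem_comap, hb]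
    exact hWb _
  · rw [ValuationSubring.mem_comap, map_inv₀, hz, ← Wb.valuation_le_one_iff, map_inv₀, hz1, inv_one]
  · rw [ValuationSubring.mem_comap, core_comm_pow bY σ γ hσγ, map_inv₀, map_inv₀, hz,
      ← Wb.valuation_le_one_iff, map_inv₀, not_le]
    have h0 : Wb.valuation ((γ ^ n) (∏ x ∈ s, x)) ≠ 0 := by
      rw [Valuation.ne_zero_iff, Ne, EmbeddingLike.map_eq_zero_iff]
      intro h
      rw [h, map_zero] at hz1
      exact zero_ne_one hz1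
    exact (one_lt_inv₀ (zero_lt_iff.mpr h0)).mpr (hz2 n hn)
  · show (σ ^ (0 : ZMod p).val) y ∈ Wb.comap bY ↔ _
    rw [ZMod.val_zero, pow_zero, AlgEquiv.one_apply, ValuationSubring.mem_comap]

end Core

end Fermat.Agent.S44.X.Cover.Sheet

end
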