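/-
S44, block X, COVER, node SHEET (architect helper30).  Concrete leaf FIXED.
An element of `F̄_Y = FYb L W` fixed by the coefficientwise action of `I` comes from `F_Y = FY K L W`
(`K` = fixed field of `I`).

Proof: `(gS τ z).coeff n = τ (z.coeff n)` (`coeffMap` is `HahnSeries.map`; lemma `coeffMap_coeff` /
`HahnSeries.coeff_map`), so every coefficient is `I`-fixed, hence in the range of `algebraMap K Kbar`
(`IsFix`).  Choose preimages (0 for 0) and build the series `z₀ : LaurentSeries K` with the same support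
(models: `S48/BB/V/Emb/Gen.lean  Emb.exists_coeffMap_eq`, `S36/Desc/Model.lean coeffMap_liftField`,
`S33/Inst/Good/DescBar.lean descBar_coeffMap_lift`).  `z₀ ∈ FY K L W` by `mem_FY_iff`.
-/
import Fermat.Agent.S44.X.Cover.Defs

set_option autoImplicit false

noncomputable section

namespace Fermat.Agent.S44.X.Cover.Sheet

open ModularCurve AlgebraicCurve Fermat.Agent.S24 Fermat.Agent.GAL
open Fermat.Agent.BAD.Bridge

/-- A series all of whose coefficients come from `K` comes from `K`. -/
theorem fixed_exists_coeffMap_eq {K M : Type} [Field K] [Field M] (φ : K →+* M)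
    (x : LaurentSeries M) (h : ∀ n, ∃ c : K, φ c = x.coeff n) :
    ∃ s : LaurentSeries K, coeffMap φ s = x := by
  choose c hc using h
  refine ⟨⟨c, x.isPWO_support.mono fun n hn => ?_⟩, ?_⟩
  · simp only [Function.mem_support, ne_eq] at hn ⊢
    intro h0
    apply hn
    apply φ.injective
    rw [hc, h0, map_zero]
  · ext n
    rw [coeffMap_coeff]
    exact hc n

theorem fixed_mem_range_bcY (K : Type) [Field K] [Algebra ℚ K] [Algebra K Kbar]
    (I : Subgroup S44.GQ) (hfix : IsFix K I) (L : ℕ) (W : LaurentSeries Kbar) (z : FYb L W)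
    (hz : ∀ τ ∈ I, gS τ (z : LaurentSeries Kbar) = z) : ∃ z₀ : FY K L W, bcY K L W z₀ = z := by
  obtain ⟨s, hs⟩ := fixed_exists_coeffMap_eq (algebraMap K Kbar) (z : LaurentSeries Kbar) (by
    intro n
    have h1 : ∀ τ ∈ I, τ ((z : LaurentSeries Kbar).coeff n) = (z : LaurentSeries Kbar).coeff n := by
      intro τ hτ
      have h2 := congrArg (fun y : LaurentSeries Kbar => y.coeff n) (hz τ hτ)
      simp only [coeffMap_coeff] at h2
      exact h2
    exact (hfix _).1 h1)
  have hmem : s ∈ FY K L W := by
    rw [mem_FY_iff, hs]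
    exact z.2
  exact ⟨⟨s, hmem⟩, Subtype.ext hs⟩

end Fermat.Agent.S44.X.Cover.Sheet

end
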