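/-
S44, block X, COVER, node SHEET (architect helper30).  Concrete leaf ORBIT.
The product over the (finite) `I`-orbit of an element `e` of `F̄_Y` comes from `F_Y`.

Proof.  (1) FINITE ORBIT: by `hspan`, `e = ∑_k c_k • bcY z_k` (`Submodule.mem_span_range_iff_exists_fun`
or `Submodule.span_induction`), `gS τ (cK z) = cK z` for `τ` in `I` (coefficients in `K` are `I`-fixed by
`IsFix`), so `gS τ e = ∑_k τ(c_k) • bcY z_k` depends only on the tuple `(τ c_k)_k`, and `τ c_k` is a root
of `minpoly ℚ c_k`: finitely many values (`Polynomial.rootSet_finite`, `Set.Finite.pi`,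
`Set.Finite.subset`/`Set.Finite.of_finite_image`...).  So
`S := {x : FYb L W | ∃ τ ∈ I, (x : LaurentSeries Kbar) = gS τ e}` is finite; `s := hS.toFinset`; `e ∈ s`
(`τ = 1`, `coeffMap_id`).
(2) For `τ' ∈ I` the map `x ↦ ⟨gS τ' x, hstab ..⟩` is a bijection of `S` (inverse: `τ'⁻¹`;
`coeffMap_coeffMap`), so `gS τ' (∏ x ∈ s, x) = ∏ x ∈ s, x` (`map_prod`, `Finset.prod_bij`).
(3) `fixed_mem_range_bcY`.
-/
import Fermat.Agent.S44.X.Cover.Sheet.Fixed

set_option autoImplicit false

noncomputable section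

namespace Fermat.Agent.S44.X.Cover.Sheet

open ModularCurve AlgebraicCurve Fermat.Agent.S24 Fermat.Agent.GAL
open Fermat.Agent.BAD.Bridge

theorem orbit_gS_one (x : LaurentSeries Kbar) : gS (1 : S44.GQ) x = x := by
  ext n
  rw [coeffMap_coeff]
  rfl

theorem orbit_gS_mul (τ' τ : S44.GQ) (x : LaurentSeries Kbar) :
    gS (τ' * τ) x = gS τ' (gS τ x) := by
  ext n
  rw [coeffMap_coeff, coeffMap_coeff, coeffMap_coeff]
  rfl

theorem orbit_gS_smul (τ : S44.GQ) (c : Kbar) (x : LaurentSeries Kbar) :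
    gS τ (algebraMap Kbar (LaurentSeries Kbar) c * x) =
      algebraMap Kbar (LaurentSeries Kbar) (τ c) * gS τ x := by
  rw [map_mul, coeffMap_algebraMap]
  rfl

theorem orbit_gS_injective (τ : S44.GQ) : Function.Injective (gS τ) := by
  intro x y h
  ext n
  have h1 := congrArg (fun z => HahnSeries.coeff z n) h
  simp only [coeffMap_coeff] at h1
  exact τ.injective h1

theorem orbit_gS_cK (K : Type) [Field K] [Algebra ℚ K] [Algebra K Kbar]
    (I : Subgroup S44.GQ) (hfix : IsFix K I) (τ : S44.GQ) (hτ : τ ∈ I) (z : LaurentSeries K) :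
    gS τ (cK K z) = cK K z := by
  ext n
  rw [coeffMap_coeff, coeffMap_coeff]
  exact ((hfix _).2 ⟨_, rfl⟩) τ hτ

/-- the Galois orbit of a constant is finite. -/
theorem orbit_finite_const (I : Subgroup S44.GQ) (c : Kbar) :
    Set.Finite {a : Kbar | ∃ τ ∈ I, a = τ c} := by
  have hc : IsIntegral ℚ c := ((AlgebraicClosure.isAlgebraic ℚ).isAlgebraic c).isIntegral
  refine Set.Finite.subset (Polynomial.rootSet_finite (minpoly ℚ c) Kbar) ?_
  rintro a ⟨τ, -, rfl⟩
  rw [Polynomial.mem_rootSet]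
  refine ⟨minpoly.ne_zero hc, ?_⟩
  have h := Polynomial.aeval_algHom_apply (τ : Kbar →ₐ[ℚ] Kbar) c (minpoly ℚ c)
  rw [minpoly.aeval, map_zero] at h
  exact h

/-- the orbit of an element of `F̄_Y` is finite. -/
theorem orbit_finite (K : Type) [Field K] [Algebra ℚ K] [Algebra K Kbar]
    (I : Subgroup S44.GQ) (hfix : IsFix K I) (L : ℕ) (W : LaurentSeries Kbar)
    (hspan : Submodule.span Kbar (Set.range (bcY K L W)) = ⊤) (e : FYb L W) :
    Set.Finite {y : LaurentSeries Kbar | ∃ τ ∈ I, y = gS τ (e : LaurentSeries Kbar)} := by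
  have he : e ∈ Submodule.span Kbar (Set.range (bcY K L W)) := by rw [hspan]; trivial
  induction he using Submodule.span_induction with
  | mem x hx =>
    obtain ⟨z, rfl⟩ := hx
    refine Set.Finite.subset (Set.finite_singleton (cK K (z : LaurentSeries K))) ?_
    rintro y ⟨τ, hτ, rfl⟩
    rw [coe_bcY, orbit_gS_cK K I hfix τ hτ]
    rfl
  | zero =>
    refine Set.Finite.subset (Set.finite_singleton (0 : LaurentSeries Kbar)) ?_
    rintro y ⟨τ, hτ, rfl⟩
    show gS τ ((0 : FYb L W) : LaurentSeries Kbar) = 0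
    rw [ZeroMemClass.coe_zero, map_zero]
  | add x y _ _ hx hy =>
    refine Set.Finite.subset (Set.Finite.image2 (fun a b => a + b) hx hy) ?_
    rintro w ⟨τ, hτ, rfl⟩
    refine ⟨_, ⟨τ, hτ, rfl⟩, _, ⟨τ, hτ, rfl⟩, ?_⟩
    show gS τ (x : LaurentSeries Kbar) + gS τ (y : LaurentSeries Kbar) = gS τ ((x + y : FYb L W))
    rw [AddMemClass.coe_add, map_add]
  | smul c x _ hx =>
    refine Set.Finite.subset (Set.Finite.image2
      (fun (a : Kbar) (b : LaurentSeries Kbar) => algebraMap Kbar (LaurentSeries Kbar) a * b)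
      (orbit_finite_const I c) hx) ?_
    rintro w ⟨τ, hτ, rfl⟩
    refine ⟨_, ⟨τ, hτ, rfl⟩, _, ⟨τ, hτ, rfl⟩, ?_⟩
    show algebraMap Kbar (LaurentSeries Kbar) (τ c) * gS τ (x : LaurentSeries Kbar) =
      gS τ ((c • x : FYb L W))
    rw [IntermediateField.coe_smul, Algebra.smul_def, orbit_gS_smul]

theorem exists_orbit_prod (K : Type) [Field K] [Algebra ℚ K] [Algebra K Kbar]
    (I : Subgroup S44.GQ) (hfix : IsFix K I) (L : ℕ) (W : LaurentSeries Kbar)
    (hstab : ∀ τ ∈ I, ∀ z ∈ FYb L W, gS τ z ∈ FYb L W)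
    (hspan : Submodule.span Kbar (Set.range (bcY K L W)) = ⊤) (e : FYb L W) :
    ∃ (s : Finset (FYb L W)) (z : FY K L W), e ∈ s ∧
      (∀ x ∈ s, ∃ τ ∈ I, (x : LaurentSeries Kbar) = gS τ (e : LaurentSeries Kbar)) ∧
      bcY K L W z = ∏ x ∈ s, x := by
  classical
  have hS : Set.Finite {x : FYb L W | ∃ τ ∈ I, (x : LaurentSeries Kbar) = gS τ e} :=
    Set.Finite.preimage (f := fun x : FYb L W => (x : LaurentSeries Kbar))
      Subtype.val_injective.injOn (orbit_finite K I hfix L W hspan e)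
  have hmem : ∀ x : FYb L W, x ∈ hS.toFinset ↔ ∃ τ ∈ I, (x : LaurentSeries Kbar) = gS τ e :=
    fun x => hS.mem_toFinset
  have hfixed : ∀ τ' ∈ I, gS τ' ((∏ x ∈ hS.toFinset, x : FYb L W) : LaurentSeries Kbar) =
      (∏ x ∈ hS.toFinset, x : FYb L W) := by
    intro τ' hτ'
    let act : FYb L W → FYb L W := fun x => ⟨gS τ' x, hstab τ' hτ' x x.2⟩
    have hinj : Function.Injective act := by
      intro x y h
      exact Subtype.ext (orbit_gS_injective τ' (congrArg Subtype.val h))
    have himg : Finset.image act hS.toFinset = hS.toFinset := by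
      apply Finset.eq_of_subset_of_card_le
      · intro y hy
        obtain ⟨x, hx, rfl⟩ := Finset.mem_image.1 hy
        obtain ⟨τ, hτ, hxτ⟩ := (hmem x).1 hx
        refine (hmem _).2 ⟨τ' * τ, I.mul_mem hτ' hτ, ?_⟩
        show gS τ' (x : LaurentSeries Kbar) = _
        rw [hxτ, orbit_gS_mul]
      · rw [Finset.card_image_of_injective _ hinj]
    have h1 : ∏ x ∈ hS.toFinset, act x = ∏ x ∈ hS.toFinset, x := by
      conv_rhs => rw [← himg]
      rw [Finset.prod_image (fun x _ y _ h => hinj h)]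
    have h2 : ∀ t : Finset (FYb L W), gS τ' ((∏ x ∈ t, x : FYb L W) : LaurentSeries Kbar) =
        ((∏ x ∈ t, act x : FYb L W) : LaurentSeries Kbar) := by
      intro t
      induction t using Finset.induction_on with
      | empty => simp
      | insert a t ha ih =>
        rw [Finset.prod_insert ha, Finset.prod_insert ha, MulMemClass.coe_mul, map_mul, ih,
          MulMemClass.coe_mul]
    rw [h2, h1]
  obtain ⟨z, hz⟩ := fixed_mem_range_bcY K I hfix L W (∏ x ∈ hS.toFinset, x) hfixed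
  refine ⟨hS.toFinset, z, (hmem e).2 ⟨1, I.one_mem, (orbit_gS_one _).symm⟩,
    fun x hx => (hmem x).1 hx, hz⟩

end Fermat.Agent.S44.X.Cover.Sheet

end
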