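/-
S44, block X, COVER, node SHEET (architect helper30).  `NodeField → NodeSheet`.
-/
import Fermat.Agent.S44.X.Cover.Sheet.Core
import Fermat.Agent.S44.X.Cover.Sheet.Orbit
import Fermat.Agent.S44.X.Cover.Sheet.Conj
import Fermat.Agent.S44.X.Cover.Hor.Repr
import Fermat.Agent.C1.Approx

set_option autoImplicit false

noncomputable section

namespace Fermat.Agent.S44.X.Cover.Sheet

open ModularCurve AlgebraicCurve Fermat.Agent.S24 Fermat.Agent.GAL
open Fermat.Agent.BAD.Bridge Fermat.Agent.S18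

section Glue

variable {A : ValuationSubring Kbar} {I : Subgroup S44.GQ} {p L : ℕ}
  {G : ValuationSubring (FN L)}

theorem main_natCast (n : ℕ) : (n : FN L) = algebraMap Kbar (FN L) (n : Kbar) :=
  (map_natCast _ n).symm

theorem main_val_p (hA : A.LiesOverPrime p) (hG : GHyp A I L G) :
    G.valuation (p : FN L) < 1 := by
  have hA' : A.valuation (p : Kbar) < 1 := A.mem_nonunits_iff.mp hA
  by_contra hcon
  rw [not_lt] at hcon
  have hp0 : (p : Kbar) ≠ 0 := by
    intro h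
    rw [main_natCast, h, map_zero, map_zero] at hcon
    exact not_le.mpr zero_lt_one hcon
  have h1 : algebraMap Kbar (FN L) ((p : Kbar))⁻¹ ∈ G := by
    rw [map_inv₀, map_natCast, ← G.valuation_le_one_iff, map_inv₀]
    exact inv_le_one_of_one_le₀ hcon
  have h2 : A.valuation ((p : Kbar))⁻¹ ≤ 1 := (A.valuation_le_one_iff _).mpr ((hG.const _).mp h1)
  have h3 : A.valuation ((p : Kbar) * (p : Kbar)⁻¹) < 1 := by
    rw [map_mul]
    exact mul_lt_one_of_lt_of_le hA' h2
  rw [mul_inv_cancel₀ hp0, map_one] at h3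
  exact lt_irrefl _ h3

theorem main_arch (hp : p.Prime) (hA : A.LiesOverPrime p) (hG : GHyp A I L G) (f : FN L) :
    ∃ n : ℕ, (p : FN L) ^ n * f ∈ G := by
  rcases eq_or_ne f 0 with rfl | hf
  · exact ⟨0, by rw [mul_zero]; exact G.zero_mem⟩
  obtain ⟨c, hc0, hc⟩ := hG.arch f hf
  obtain ⟨m₀, hm₀⟩ := C1.exists_pow_mul_mem_nonunits hp hA (p : Kbar) hA c
  refine ⟨m₀, ?_⟩
  have h1 : c * (p : Kbar) ^ m₀ ∈ A := by
    have := hm₀ m₀ le_rfl
    rw [A.mem_nonunits_iff] at this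
    exact (A.valuation_le_one_iff _).mp this.le
  have h2 : (p : FN L) ^ m₀ * f =
      algebraMap Kbar (FN L) (c * (p : Kbar) ^ m₀) * (f / algebraMap Kbar (FN L) c) := by
    have hc1 : algebraMap Kbar (FN L) c ≠ 0 := (map_ne_zero _).mpr hc0
    rw [map_mul, map_pow, map_natCast]
    field_simp
  rw [h2]
  exact G.mul_mem _ _ ((hG.const _).mpr h1) ((G.valuation_le_one_iff _).mp hc.le)

/-- the conjugates of the approximate idempotent. -/
theorem main_conj (K : Type) [Field K] [Algebra ℚ K] [Algebra K Kbar] (hp : p.Prime)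
    (hfix : IsFix K I) (U : FN L) (W : LaurentSeries Kbar) (hR : RootData I p L U W)
    (ζ : Kbar) (hζ : IsPrimitiveRoot ζ p) (hG : GHyp A I L G)
    (hstab : ∀ τ ∈ I, ∀ z ∈ FYb L W, gS τ z ∈ FYb L W)
    (hspan : Submodule.span Kbar (Set.range (bcY K L W)) = ⊤)
    (t : FN L) (ht0 : t ≠ 0) (ht : (U * t ^ p - 1) / (p : FN L) ^ 2 ∈ G)
    (hrat : IsRat I p L W G t) :
    ∃ (s : Finset (FYb L W)) (z : FY K L W), s.Nonempty ∧ bcY K L W z = ∏ x ∈ s, x ∧
      ∀ x ∈ s, ∃ (m : ℕ) (r : FN L), ¬ p ∣ m ∧ (r - 1) / (p : FN L) ∈ G ∧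
        (r ^ p * (U * t ^ p) ^ m - 1) / (p : FN L) ^ 2 ∈ G ∧
        x = idem p (algebraMap (FN L) (FYb L W) r *
          (Wel L W * algebraMap (FN L) (FYb L W) t) ^ m) := by
  obtain ⟨s, z, he, hs, hz⟩ := exists_orbit_prod K I hfix L W hstab hspan
    (idem p (Wel L W * algebraMap (FN L) (FYb L W) t))
  refine ⟨s, z, ⟨_, he⟩, hz, fun x hx => ?_⟩
  obtain ⟨τ, hτ, hxτ⟩ := hs x hx
  obtain ⟨m, r, hact, hm, hr⟩ := exists_conj I p L hp U W hR ζ hζ t ht0 τ hτ
  have hdeep1 := hrat τ hτ m hact r hr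
  refine ⟨m, r, hm, ?_, ?_, ?_⟩
  · have h1 : (r - 1) / (p : FN L) ^ 1 ∈ G := hdeep1
    rwa [pow_one] at h1
  · have h1 : r ^ p * (U * t ^ p) ^ m = E.galF L τ (U * t ^ p) := by
      apply Subtype.ext
      rw [E.coe_galF]
      have h2 : ((U * t ^ p : FN L) : LaurentSeries Kbar) = (W * (t : LaurentSeries Kbar)) ^ p := by
        rw [mul_pow, hR.pow]
        rfl
      rw [h2, map_pow]
      have h3 : coeffMap (τ : Kbar →+* Kbar) (W * (t : LaurentSeries Kbar)) =
          (r : LaurentSeries Kbar) * (W * t) ^ m := hr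
      rw [h3]
      have h4 : ((r ^ p * (U * t ^ p) ^ m : FN L) : LaurentSeries Kbar) =
          (r : LaurentSeries Kbar) ^ p * ((U * t ^ p : FN L) : LaurentSeries Kbar) ^ m := rfl
      rw [h4, h2]
      ring
    have h5 : (r ^ p * (U * t ^ p) ^ m - 1) / (p : FN L) ^ 2 =
        E.galF L τ ((U * t ^ p - 1) / (p : FN L) ^ 2) := by
      rw [h1]
      simp only [map_div₀, map_sub, map_pow, map_one, map_natCast]
    rw [h5]
    exact (hG.gal τ hτ _).mpr ht
  · apply Subtype.ext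
    rw [hxτ]
    have hφ := core_map_idem ((FYb L W).val : FYb L W →+* LaurentSeries Kbar) p
    have hφ1 : ∀ y : FYb L W, ((idem p y : FYb L W) : LaurentSeries Kbar) =
        idem p (y : LaurentSeries Kbar) := hφ
    have h6 : ((Wel L W * algebraMap (FN L) (FYb L W) t : FYb L W) : LaurentSeries Kbar) =
        W * (t : LaurentSeries Kbar) := by
      rw [MulMemClass.coe_mul, coe_algebraMap_FYb]
      rfl
    have h7 : gS τ ((Wel L W * algebraMap (FN L) (FYb L W) t : FYb L W) : LaurentSeries Kbar) =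
        ((algebraMap (FN L) (FYb L W) r * (Wel L W * algebraMap (FN L) (FYb L W) t) ^ m :
          FYb L W) : LaurentSeries Kbar) := by
      rw [h6, hr, MulMemClass.coe_mul, SubmonoidClass.coe_pow, h6, coe_algebraMap_FYb]
    rw [hφ1, hφ1, core_map_idem, h7]

end Glue

/-- **Node Sheet** from Node Field. -/
theorem nodeSheet_of (hF : NodeField) : NodeSheet := by
  intro K _ _ _ A I p L _ hp hp2 hA hfix U W hR ζ hζ σ γ hdeck G hG hdeep hrat
  obtain ⟨hstab, hspan, -⟩ := hF K I p L hp hfix U W hR ζ hζ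
  have hζ0 : IsPrimitiveRoot (algebraMap Kbar (FN L) ζ) p :=
    hζ.map_of_injective (algebraMap Kbar (FN L)).injective
  have hw : Wel L W ^ p = algebraMap (FN L) (FYb L W) U := by
    apply Subtype.ext
    rw [coe_algebraMap_FYb, ← hR.pow]
    exact SubmonoidClass.coe_pow _ _
  have hγw : γ (Wel L W) = algebraMap (FN L) (FYb L W) (algebraMap Kbar (FN L) ζ) * Wel L W := by
    rw [hdeck.root, ← IsScalarTower.algebraMap_apply]
  have hrepr : ∀ z : FYb L W, ∃ c : ℕ → FN L,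
      z = ∑ i ∈ Finset.range p, algebraMap (FN L) (FYb L W) (c i) * Wel L W ^ i := by
    intro z
    obtain ⟨c, hc⟩ := Hor.exists_repr L p hp.ne_zero U W hR.pow z
    refine ⟨c, ?_⟩
    rw [hc, algebraMap_FYb_eq]
    rfl
  exact core (bcX K L) (bcY K L W) (bcY_algebraMap K L W) p hp hp2 σ γ hdeck.comm
    (algebraMap Kbar (FN L) ζ) hζ0 U (Wel L W) hw hγw hrepr G (main_val_p hA hG)
    (main_arch hp hA hG) hdeep
    (fun t ht0 ht => main_conj K hp hfix U W hR ζ hζ hG hstab hspan t ht0 ht (hrat t ht))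

end Fermat.Agent.S44.X.Cover.Sheet

end
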